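import Fermat.Agent.S55.G.Ideles
import Fermat.Agent.S36.K0b
import Fermat.Agent.S13.Minkowski

/-!
# S55, chapter P: places of `ℚ̄`, inertia groups, level systems
-/

set_option autoImplicit false
set_option linter.unusedSectionVars false
set_option linter.unusedVariables false
set_option linter.style.haveILetI false

namespace Fermat.Agent.S55Lib

noncomputable section

open groupCohomology
open scoped Pointwise

/-! ### translates of a place -/

lemma PL_mem_smul (σ : GQ) (A : ValuationSubring Qbar) (x : Qbar) : x ∈ σ • A ↔ σ⁻¹ x ∈ A := by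
  rw [ValuationSubring.mem_pointwise_smul_iff_inv_smul_mem]; rfl

lemma PL_mem_nonunits_iff (A : ValuationSubring Qbar) (x : Qbar) :
    x ∈ A.nonunits ↔ x = 0 ∨ x⁻¹ ∉ A := by
  rw [ValuationSubring.mem_nonunits_iff]
  by_cases hx : x = 0
  · simp [hx]
  · have h4 : A.valuation x ≠ 0 := (Valuation.ne_zero_iff _).mpr hx
    rw [← A.valuation_le_one_iff, map_inv₀, not_le, one_lt_inv₀ (zero_lt_iff.mpr h4)]
    simp [hx]

lemma PL_nonunits_smul (σ : GQ) (A : ValuationSubring Qbar) (x : Qbar) :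
    x ∈ (σ • A).nonunits ↔ σ⁻¹ x ∈ A.nonunits := by
  rw [PL_mem_nonunits_iff, PL_mem_nonunits_iff, PL_mem_smul, map_inv₀]
  simp

lemma PL_liesOver_smul (σ : GQ) {A : ValuationSubring Qbar} {q : ℕ} (hA : A.LiesOverPrime q) :
    (σ • A).LiesOverPrime q := by
  show (q : Qbar) ∈ (σ • A).nonunits
  rw [PL_nonunits_smul, map_natCast]
  exact hA

/-- characterisation of the inertia group by its action on algebraic integers -/
lemma PL_mem_inertia_iff (A : ValuationSubring Qbar) {q : ℕ} (hq : q.Prime)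
    (hA : A.LiesOverPrime q) (σ : GQ) :
    σ ∈ A.inertiaSubgroupIn ℚ ↔ ∀ b : Qbar, IsIntegral ℤ b → σ b - b ∈ A.nonunits := by
  constructor
  · intro h b hb
    exact (S36Lib.inertia_mem h (FrobLib.integral_mem_valuationSubring A hb)).2
  · intro h
    refine S13Lib.MK.mem_inertiaSubgroupIn A hq hA σ (fun b => ?_)
    rw [FrobLib.mem_center_iff]
    exact h b b.2

lemma PL_conj_inertia (σ : GQ) {A : ValuationSubring Qbar} {q : ℕ} (hq : q.Prime)
    (hA : A.LiesOverPrime q) {g : GQ} (hg : g ∈ A.inertiaSubgroupIn ℚ) :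
    σ * g * σ⁻¹ ∈ (σ • A).inertiaSubgroupIn ℚ := by
  rw [PL_mem_inertia_iff _ hq (PL_liesOver_smul σ hA)]
  intro b hb
  rw [PL_nonunits_smul]
  have h1 : IsIntegral ℤ (σ⁻¹ b) := hb.map ((σ⁻¹ : GQ).restrictScalars ℤ)
  have h2 := (PL_mem_inertia_iff A hq hA g).1 hg _ h1
  have h3 : σ⁻¹ ((σ * g * σ⁻¹) b - b) = g (σ⁻¹ b) - σ⁻¹ b := by
    rw [map_sub]
    congr 1
    show σ⁻¹ (σ (g (σ⁻¹ b))) = _
    exact σ.symm_apply_apply _
  rw [h3]
  exact h2

open FrobLib in
lemma PL_map_mem (A A' : ValuationSubring Qbar) {ℓ : ℕ} (hℓ : ℓ.Prime)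
    (hA : (ℓ : Qbar) ∈ A.nonunits) (τ : GQ) (hτ : τ • center A = center A') {x : Qbar}
    (hx : x ∈ A) : τ x ∈ A' := by
  obtain ⟨b, hb, hbx, hbn⟩ := exists_integral_mul A hℓ hA hx (isAlgebraic_int_Qbar x)
  have h1 : τ b ∉ A'.nonunits := by
    intro h
    have h2 : τ • (⟨b, hb⟩ : integralClosure ℤ Qbar) ∈ center A' := (mem_center_iff A' _).mpr h
    rw [← hτ, Ideal.smul_mem_pointwise_smul_iff] at h2
    exact hbn ((mem_center_iff A _).mp h2)
  have h3 : τ (b * x) ∈ A' :=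
    integral_mem_valuationSubring A' (hbx.map (τ : Qbar →ₐ[ℚ] Qbar).toRingHom.toIntAlgHom)
  have h4 : τ b ∈ A' :=
    integral_mem_valuationSubring A' (hb.map (τ : Qbar →ₐ[ℚ] Qbar).toRingHom.toIntAlgHom)
  rw [ValuationSubring.mem_nonunits_iff, not_lt] at h1
  rw [← A'.valuation_le_one_iff] at h3 h4 ⊢
  have h5 : A'.valuation (τ b) = 1 := le_antisymm h4 h1
  rw [map_mul, map_mul, h5, one_mul] at h3
  exact h3

open FrobLib in
/-- `G_ℚ` acts transitively on the places above `q` -/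
lemma PL_exists_smul_eq {q : ℕ} (hq : q.Prime) (A A' : ValuationSubring Qbar)
    (hA : A.LiesOverPrime q) (hA' : A'.LiesOverPrime q) : ∃ τ : GQ, τ • A = A' := by
  haveI := center_liesOver A hq hA
  haveI := center_liesOver A' hq hA'
  letI : TopologicalSpace (integralClosure ℤ Qbar) := ⊥
  haveI : DiscreteTopology (integralClosure ℤ Qbar) := ⟨rfl⟩
  haveI := continuousSMul_Zbar
  haveI := isInvariant_Zbar
  have hPQ : (center A).under ℤ = (center A').under ℤ :=
    ((center A).over_def (Ideal.span {(q : ℤ)})).symm.trans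
      ((center A').over_def (Ideal.span {(q : ℤ)}))
  obtain ⟨τ, hτ⟩ := Algebra.IsInvariant.exists_smul_of_under_eq_of_profinite (A := ℤ) (G := GQ)
    (center A) (center A') hPQ
  refine ⟨τ, ?_⟩
  ext x
  rw [PL_mem_smul]
  constructor
  · intro h
    have := PL_map_mem A A' hq hA τ hτ.symm h
    rwa [show τ (τ⁻¹ x) = x from τ.apply_symm_apply x] at this
  · intro h
    refine PL_map_mem A' A hq hA' τ⁻¹ ?_ h
    rw [hτ, inv_smul_smul]

lemma PL_mem_padicPlace (q : Nat.Primes) (x : Qbar) : x ∈ padicPlace (q : ℕ) ↔ ‖iq q x‖ ≤ 1 :=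
  Iff.rfl

lemma PL_norm_q (q : Nat.Primes) : ‖((q : ℕ) : Om q)‖ = ((q : ℕ) : ℝ)⁻¹ := by
  have h1 : ‖(((q : ℕ) : ℚ_[(q : ℕ)]) : Om q)‖ = ‖((q : ℕ) : ℚ_[(q : ℕ)])‖ :=
    PadicAlgCl.norm_extends _ _
  have h2 : (((q : ℕ) : ℚ_[(q : ℕ)]) : Om q) = ((q : ℕ) : Om q) := map_natCast _ _
  rw [← h2, h1, Padic.norm_p]

lemma PL_padicPlace_liesOver (q : Nat.Primes) : (padicPlace (q : ℕ)).LiesOverPrime (q : ℕ) := by
  show ((q : ℕ) : Qbar) ∈ (padicPlace (q : ℕ)).nonunits
  rw [PL_mem_nonunits_iff]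
  right
  rw [PL_mem_padicPlace, map_inv₀, map_natCast, norm_inv, PL_norm_q, inv_inv, not_le]
  exact_mod_cast q.2.one_lt

/-- an algebraic number all of whose conjugates are `q`-adic units is a unit at all places
above `q` -/
lemma PL_isU_of_norm (q : Nat.Primes) (a : Qbar) (h : ∀ g : GQ, ‖iq q (g a)‖ = 1)
    (A : ValuationSubring Qbar) (hA : A.LiesOverPrime (q : ℕ)) : S36Lib.IsU A a := by
  obtain ⟨τ, rfl⟩ := PL_exists_smul_eq q.2 _ A (PL_padicPlace_liesOver q) hA
  refine ⟨?_, ?_⟩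
  · rw [PL_mem_smul, PL_mem_padicPlace, h]
  · rw [PL_mem_smul, PL_mem_padicPlace, map_inv₀, map_inv₀, norm_inv, h, inv_one]

/-! ### normal closures -/

lemma PL_stable_normalClosure (F : IntermediateField ℚ Qbar) :
    StableF (IntermediateField.normalClosure ℚ F Qbar) := by
  intro σ x hx
  haveI : Algebra.IsAlgebraic ℚ Qbar := AlgebraicClosure.isAlgebraic ℚ
  haveI : Normal ℚ (IntermediateField.normalClosure ℚ F Qbar) :=
    normalClosure.normal _ _ _
  have := (IntermediateField.normal_iff_forall_map_le'.mp this) σ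
  exact this ⟨x, hx, rfl⟩

lemma PL_exists_stable (F : IntermediateField ℚ Qbar) (hF : FiniteDimensional ℚ F) :
    ∃ F' : IntermediateField ℚ Qbar, F ≤ F' ∧ FiniteDimensional ℚ F' ∧ StableF F' :=
  ⟨IntermediateField.normalClosure ℚ F Qbar, IntermediateField.le_normalClosure _,
    normalClosure.is_finiteDimensional _ _ _, PL_stable_normalClosure F⟩


lemma PL_exists_stableS (S : Finset Nat.Primes) (F : IntermediateField ℚ Qbar)
    (hF : F.IsUnramifiedOutside S) :
    ∃ F' : IntermediateField ℚ Qbar, F ≤ F' ∧ StableF F' ∧ F'.IsUnramifiedOutside S := by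
  haveI := hF.1
  haveI : Normal ℚ Qbar := isGaloisQbar.to_normal
  refine ⟨IntermediateField.normalClosure ℚ F Qbar, IntermediateField.le_normalClosure _,
    PL_stable_normalClosure F, normalClosure.is_finiteDimensional _ _ _, fun q hq A hA => ?_⟩
  rw [← IntermediateField.le_iff_le]
  refine (IntermediateField.normalClosure_def'' F).le.trans ?_
  refine iSup_le (fun σ => ?_)
  rintro _ ⟨x, hx, rfl⟩
  rw [IntermediateField.mem_fixedField_iff]
  intro g hg
  have h1 := PL_conj_inertia σ⁻¹ q.2 hA hg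
  have h2 := hF.2 q hq _ (PL_liesOver_smul σ⁻¹ hA) h1
  rw [IntermediateField.mem_fixingSubgroup_iff] at h2
  have h3 : σ⁻¹ (g (σ x)) = x := by
    have := h2 x hx
    simpa using this
  have h4 := congrArg σ h3
  rwa [show σ (σ⁻¹ (g (σ x))) = g (σ x) from σ.apply_symm_apply _] at h4

/-! ### level constancy -/

lemma PL_const₁_iff (S : Finset Nat.Primes) {X : Type*} (f : GQ → X) :
    IsLevelConstantS₁ S f ↔ (levS S).Const₁ f := by
  constructor
  · rintro ⟨F, hF, h⟩
    obtain ⟨F', hle, hst, hur⟩ := PL_exists_stableS S F hF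
    exact ⟨_, ⟨F', hur.1, hst, hur, rfl⟩, fun g s hs =>
      h g s (IntermediateField.fixingSubgroup_antitone hle hs)⟩
  · rintro ⟨_, ⟨F, hfd, hst, hur, rfl⟩, h⟩
    exact ⟨F, hur, fun g s hs => h g s hs⟩

lemma PL_const₂_iff (S : Finset Nat.Primes) {X : Type*} (f : GQ × GQ → X) :
    IsLevelConstantS₂ S f ↔ (levS S).Const₂ f := by
  constructor
  · rintro ⟨F, hF, h⟩
    obtain ⟨F', hle, hst, hur⟩ := PL_exists_stableS S F hF
    exact ⟨_, ⟨F', hur.1, hst, hur, rfl⟩, fun g g' s hs s' hs' =>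
      h g g' s s' (IntermediateField.fixingSubgroup_antitone hle hs)
        (IntermediateField.fixingSubgroup_antitone hle hs')⟩
  · rintro ⟨_, ⟨F, hfd, hst, hur, rfl⟩, h⟩
    exact ⟨F, hur, fun g g' s s' hs hs' => h g g' s hs s' hs'⟩

lemma PL_loc_const₁_iff {H : Type} [Group H] (r : H →* GQ) {X : Type*} (f : H → X) :
    IsLevelConstant₁ r f ↔ (levAll.comap r).Const₁ f := by
  constructor
  · rintro ⟨F, hF, h⟩
    obtain ⟨F', hle, hfd, hst⟩ := PL_exists_stable F hF
    exact ⟨_, ⟨_, ⟨F', hfd, hst, trivial, rfl⟩, rfl⟩, fun g s hs =>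
      h g s (IntermediateField.fixingSubgroup_antitone hle hs)⟩
  · rintro ⟨_, ⟨_, ⟨F, hfd, hst, -, rfl⟩, rfl⟩, h⟩
    exact ⟨F, hfd, fun g s hs => h g s hs⟩

lemma PL_loc_const₂_iff {H : Type} [Group H] (r : H →* GQ) {X : Type*} (f : H × H → X) :
    IsLevelConstant₂ r f ↔ (levAll.comap r).Const₂ f := by
  constructor
  · rintro ⟨F, hF, h⟩
    obtain ⟨F', hle, hfd, hst⟩ := PL_exists_stable F hF
    exact ⟨_, ⟨_, ⟨F', hfd, hst, trivial, rfl⟩, rfl⟩, fun g g' s hs s' hs' =>
      h g g' s s' (IntermediateField.fixingSubgroup_antitone hle hs)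
        (IntermediateField.fixingSubgroup_antitone hle hs')⟩
  · rintro ⟨_, ⟨_, ⟨F, hfd, hst, -, rfl⟩, rfl⟩, h⟩
    exact ⟨F, hfd, fun g g' s s' hs hs' => h g g' s hs s' hs'⟩


/-! ### constructing levels -/


lemma PL_mem_levS_of_finite (S : Finset Nat.Primes) (T : Set Qbar) (hT : T.Finite)
    (hst : ∀ σ : GQ, ∀ x ∈ T, σ x ∈ T)
    (hur : ∀ q : Nat.Primes, q ∉ S → ∀ A : ValuationSubring Qbar, A.LiesOverPrime (q : ℕ) →
      ∀ g ∈ A.inertiaSubgroupIn ℚ, ∀ x ∈ T, g x = x) :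
    (IntermediateField.adjoin ℚ T).fixingSubgroup ∈ (levS S).mem := by
  haveI : Algebra.IsAlgebraic ℚ Qbar := AlgebraicClosure.isAlgebraic ℚ
  haveI : Finite T := hT
  have hfd : FiniteDimensional ℚ (IntermediateField.adjoin ℚ T) :=
    IntermediateField.finiteDimensional_adjoin (fun x _ => Algebra.IsIntegral.isIntegral x)
  refine ⟨IntermediateField.adjoin ℚ T, hfd, ?_, ⟨hfd, fun q hq A hA => ?_⟩, rfl⟩
  · intro σ x hx
    have h1 : (IntermediateField.adjoin ℚ T).map (σ : Qbar →ₐ[ℚ] Qbar)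
        ≤ IntermediateField.adjoin ℚ T := by
      rw [IntermediateField.adjoin_map, IntermediateField.adjoin_le_iff]
      rintro _ ⟨y, hy, rfl⟩
      exact IntermediateField.subset_adjoin ℚ T (hst σ y hy)
    exact h1 ⟨x, hx, rfl⟩
  · rw [← IntermediateField.le_iff_le, IntermediateField.adjoin_le_iff]
    intro x hx
    rw [SetLike.mem_coe, IntermediateField.mem_fixedField_iff]
    exact fun g hg => hur q hq A hA g hg x hx

/-- an open normal subgroup containing all inertia groups outside `S` is a level -/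
lemma PL_mem_levS_of_le (S : Finset Nat.Primes) (H : Subgroup GQ) [hn : H.Normal]
    (F : IntermediateField ℚ Qbar) (hF : FiniteDimensional ℚ F) (hFH : F.fixingSubgroup ≤ H)
    (hur : ∀ q : Nat.Primes, q ∉ S → ∀ A : ValuationSubring Qbar, A.LiesOverPrime (q : ℕ) →
      A.inertiaSubgroupIn ℚ ≤ H) : H ∈ (levS S).mem := by
  have hopen : IsOpen (H : Set GQ) := Subgroup.isOpen_mono hFH F.fixingSubgroup_isOpen
  have hclosed : IsClosed (H : Set GQ) := Subgroup.isClosed_of_isOpen H hopen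
  have hH : (IntermediateField.fixedField H).fixingSubgroup = H :=
    InfiniteGalois.fixingSubgroup_fixedField (⟨H, hclosed⟩ : ClosedSubgroup GQ)
  have hle : IntermediateField.fixedField H ≤ F := by
    have h1 : IntermediateField.fixedField H ≤ IntermediateField.fixedField F.fixingSubgroup :=
      IntermediateField.fixedField_antitone hFH
    rwa [InfiniteGalois.fixedField_fixingSubgroup] at h1
  have hfd : FiniteDimensional ℚ (IntermediateField.fixedField H) :=
    FiniteDimensional.of_injective (IntermediateField.inclusion hle).toLinearMap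
      (IntermediateField.inclusion_injective hle)
  refine ⟨IntermediateField.fixedField H, hfd, ?_, ⟨hfd, fun q hq A hA => ?_⟩, hH.symm⟩
  · intro σ x hx
    rw [IntermediateField.mem_fixedField_iff] at hx ⊢
    intro h hh
    have h1 : σ⁻¹ * h * σ ∈ H := by
      have := hn.conj_mem h hh σ⁻¹
      simpa using this
    have h2 : σ⁻¹ (h (σ x)) = x := hx _ h1
    have h4 := congrArg σ h2
    rwa [show σ (σ⁻¹ (h (σ x))) = h (σ x) from σ.apply_symm_apply _] at h4
  · rw [hH]
    exact hur q hq A hA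

lemma PL_root_fixed {p : ℕ} {q : ℕ} (hq : q.Prime) (hqp : ¬ q ∣ p)
    (A : ValuationSubring Qbar) (hA : A.LiesOverPrime q) (b : Qbar)
    (hU : S36Lib.IsU A (b ^ p)) (hfix : ∀ g ∈ A.inertiaSubgroupIn ℚ, g (b ^ p) = b ^ p) :
    ∀ g ∈ A.inertiaSubgroupIn ℚ, g b = b := by
  have h1 : b ^ p ∈ S36Lib.K0 A := S36Lib.mem_K0_iff.2 hfix
  exact S36Lib.mem_K0_iff.1 (S36Lib.mem_K0_of_pow A hq hA hqp h1 hU)

lemma PL_not_dvd (S : Finset Nat.Primes) (p : ℕ) [Fact p.Prime]
    (hpS : ExtCitation.pPrime p ∈ S) (q : Nat.Primes) (hq : q ∉ S) : ¬ (q : ℕ) ∣ p := by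
  intro h
  have h1 : (q : ℕ) = p := (Nat.prime_dvd_prime_iff_eq q.2 Fact.out).1 h
  apply hq
  have : q = ExtCitation.pPrime p := Subtype.ext h1
  rw [this]; exact hpS

lemma PL_mu_fixed (S : Finset Nat.Primes) (p : ℕ) [Fact p.Prime]
    (hpS : ExtCitation.pPrime p ∈ S) (q : Nat.Primes) (hq : q ∉ S) (A : ValuationSubring Qbar)
    (hA : A.LiesOverPrime (q : ℕ)) (g : GQ) (hg : g ∈ A.inertiaSubgroupIn ℚ) (z : Qbar)
    (hz : z ^ p = 1) : g z = z :=
  PL_root_fixed q.2 (PL_not_dvd S p hpS q hq) A hA z (by rw [hz]; exact S36Lib.isU_one A)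
    (fun g _ => by rw [hz, map_one]) g hg

/-- the level of the `p`-th roots of unity -/
lemma PL_exists_level_mu (S : Finset Nat.Primes) (p : ℕ) [Fact p.Prime]
    (hpS : ExtCitation.pPrime p ∈ S) :
    ∃ U ∈ (levS S).mem, ∀ s ∈ U, ∀ z : Qbar, z ^ p = 1 → s z = z := by
  have hp : 0 < p := (Fact.out : p.Prime).pos
  have hT : {z : Qbar | z ^ p = 1}.Finite := by
    refine (Polynomial.nthRootsFinset p (1 : Qbar)).finite_toSet.subset ?_
    intro z hz
    exact (Polynomial.mem_nthRootsFinset hp _).2 hz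
  refine ⟨_, PL_mem_levS_of_finite S {z : Qbar | z ^ p = 1} hT ?_ ?_, ?_⟩
  · intro σ x hx
    show (σ x) ^ p = 1
    rw [← map_pow, show x ^ p = 1 from hx, map_one]
  · intro q hq A hA g hg x hx
    exact PL_mu_fixed S p hpS q hq A hA g hg x hx
  · intro s hs z hz
    rw [IntermediateField.mem_fixingSubgroup_iff] at hs
    exact hs z (IntermediateField.subset_adjoin ℚ _ hz)


end

end Fermat.Agent.S55Lib
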