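import Fermat.Agent.S55.G.Ideles

/-!
# S55, chapter P: the module of a representation, the hypotheses of S55
(definitions verbatim from helper4's `W/Top.lean` skeleton)
-/

set_option autoImplicit false
set_option linter.unusedSectionVars false
set_option linter.unusedVariables false
set_option linter.style.haveILetI false

namespace Fermat.Agent.S55Lib

noncomputable section

open groupCohomology ExtCitation CategoryTheory

/-! ### the module of a representation -/

/-- the underlying `G`-module of a representation -/
def RepM {k G : Type} [CommRing k] [Group G] (M : Rep k G) : Type := M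

section RepM
variable {k G : Type} [CommRing k] [Group G] (M : Rep k G)
instance : AddCommGroup (RepM M) := inferInstanceAs (AddCommGroup M)
instance : Module k (RepM M) := inferInstanceAs (Module k M)
instance : DistribMulAction G (RepM M) where
  smul g m := M.ρ g m
  one_smul m := by show M.ρ 1 m = m; rw [map_one]; rfl
  mul_smul g h m := by show M.ρ (g * h) m = M.ρ g (M.ρ h m); rw [map_mul]; rfl
  smul_zero g := map_zero (M.ρ g)
  smul_add g m n := map_add (M.ρ g) m n
lemma RepM.smul_def (g : G) (m : RepM M) : g • m = M.ρ g m := rfl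
end RepM

variable {p : ℕ} [Fact p.Prime] (S : Finset Nat.Primes)
  (M : Rep (ZMod p) GQ)

/-- `N = M^*(1)` -/
abbrev Ndual : Rep (ZMod p) GQ := M.dualTwist (cycloChar p)

/-- the hypotheses of S55 on `M` -/
structure S55Hyp (p : ℕ) [Fact p.Prime] (S : Finset Nat.Primes) (M : Rep (ZMod p) GQ) : Prop where
  hp2 : p ≠ 2
  hpS : pPrime p ∈ S
  fin : FiniteDimensional (ZMod p) M
  hsm : ∀ m : M, ∃ F : IntermediateField ℚ (AlgebraicClosure ℚ), FiniteDimensional ℚ F ∧
      ∀ s ∈ F.fixingSubgroup, M.ρ s m = m
  hMur : ∀ q : Nat.Primes, q ∉ S → ∀ A : ValuationSubring (AlgebraicClosure ℚ),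
      A.LiesOverPrime (q : ℕ) → ∀ g ∈ A.inertiaSubgroupIn ℚ, M.ρ g = 1

/-- `U` contains (i.e. its fixed field contains) the `p`-th roots of unity -/
def FixesMu (p : ℕ) (U : Subgroup GQ) : Prop := ∀ s ∈ U, ∀ z : Qbar, z ^ p = 1 → s z = z

end

end Fermat.Agent.S55Lib
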