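import Fermat.Agent.S55.P.Defs

/-!
# S55, chapter P: finiteness, `p`-torsion, pairing from equal cardinalities
-/

set_option autoImplicit false
set_option linter.unusedSectionVars false
set_option linter.unusedVariables false
set_option linter.style.haveILetI false

namespace Fermat.Agent.S55Lib

noncomputable section

open groupCohomology ExtCitation CategoryTheory

variable {p : ℕ} [Fact p.Prime] (S : Finset Nat.Primes)
  (M : Rep (ZMod p) GQ)

/-- (P0) finiteness -/
theorem P_finite (h : S55Hyp p S M) : Finite (RepM M) ∧ Finite (RepM (Ndual M)) := by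
  haveI := h.fin
  refine ⟨?_, ?_⟩
  · exact (Module.finite_of_finite (ZMod p) : Finite M)
  · haveI : Module.Finite (ZMod p) (Module.Dual (ZMod p) M) := inferInstance
    exact (Module.finite_of_finite (ZMod p) : Finite (Module.Dual (ZMod p) M))

theorem P_ptors (m : RepM M) : p • m = 0 := by
  rw [← Nat.cast_smul_eq_nsmul (ZMod p) p m, ZMod.natCast_self, zero_smul]

/-- (P5) equal finite cardinalities give a perfect pairing. -/
theorem P_pairing {X Y : Type} [AddCommGroup X] [AddCommGroup Y] [Module (ZMod p) X]
    [Module (ZMod p) Y] [Finite Y] (hcard : Nat.card X = Nat.card Y) :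
    ∃ B : X →ₗ[ZMod p] Y →ₗ[ZMod p] ZMod p,
      (∀ y, (∀ x, B y x = 0) → y = 0) ∧ (∀ x, (∀ y, B y x = 0) → x = 0) := by
  haveI : Finite X := by
    apply Nat.finite_of_card_ne_zero
    rw [hcard]
    exact Nat.card_pos.ne'
  haveI : Module.Finite (ZMod p) X := Module.Finite.of_finite
  haveI : Module.Finite (ZMod p) Y := Module.Finite.of_finite
  have hfr : Module.finrank (ZMod p) X = Module.finrank (ZMod p) Y := by
    have h1 := Module.natCard_eq_pow_finrank (K := ZMod p) (V := X)
    have h2 := Module.natCard_eq_pow_finrank (K := ZMod p) (V := Y)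
    rw [hcard, h2] at h1
    have hp : 2 ≤ Nat.card (ZMod p) := by
      rw [Nat.card_zmod]; exact (Fact.out : p.Prime).two_le
    exact (Nat.pow_right_injective hp h1).symm
  let e : X ≃ₗ[ZMod p] Y := LinearEquiv.ofFinrankEq X Y hfr
  let b := Module.finBasis (ZMod p) Y
  let d : Y ≃ₗ[ZMod p] Module.Dual (ZMod p) Y := b.toDualEquiv
  refine ⟨(d.toLinearMap).comp e.toLinearMap, ?_, ?_⟩
  · intro y hy
    have h1 : d (e y) = 0 := LinearMap.ext hy
    have h2 : e y = 0 := by simpa using h1
    simpa using h2
  · intro x hx
    rw [← Module.forall_dual_apply_eq_zero_iff (ZMod p)]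
    intro φ
    have := hx (e.symm (d.symm φ))
    simpa using this

end

end Fermat.Agent.S55Lib
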