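import Fermat.Agent.S55.P.Basic
import Fermat.Agent.S55.P.Places

/-!
# S55, chapter P: the cyclotomic character and the level `V`
-/

set_option autoImplicit false
set_option linter.unusedSectionVars false
set_option linter.unusedVariables false
set_option linter.style.haveILetI false

namespace Fermat.Agent.S55Lib

noncomputable section

open groupCohomology ExtCitation CategoryTheory

variable {p : ℕ} [Fact p.Prime] (S : Finset Nat.Primes)
  (M : Rep (ZMod p) GQ)

lemma P_cyclo_spec (g : GQ) (z : Qbar) (hz : z ^ p = 1) :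
    g z = z ^ ((cycloChar p g : (ZMod p)ˣ) : ZMod p).val := by
  haveI : NeZero p := ⟨(Fact.out : p.Prime).ne_zero⟩
  have hz0 : z ≠ 0 := by
    rintro rfl
    rw [zero_pow (Fact.out : p.Prime).ne_zero] at hz
    exact zero_ne_one hz
  have ht : Units.mk0 z hz0 ∈ rootsOfUnity p Qbar := by
    rw [mem_rootsOfUnity]
    apply Units.ext
    rw [Units.val_pow_eq_pow_val, Units.val_mk0, hz, Units.val_one]
  exact modularCyclotomicCharacter.spec Qbar (card_rootsOfUnity_eq_self p)
    (g : Qbar ≃+* Qbar) ht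

lemma P_cyclo_eq_one (g : GQ) (h : ∀ z : Qbar, z ^ p = 1 → g z = z) : cycloChar p g = 1 := by
  haveI : NeZero p := ⟨(Fact.out : p.Prime).ne_zero⟩
  haveI : Fact (1 < p) := ⟨(Fact.out : p.Prime).one_lt⟩
  have := modularCyclotomicCharacter.unique Qbar (card_rootsOfUnity_eq_self p)
    (g : Qbar ≃+* Qbar) (c := 1) (fun t ht => by
      rw [ZMod.val_one, pow_one]
      refine h t ?_
      rw [mem_rootsOfUnity] at ht
      rw [← Units.val_pow_eq_pow_val, ht, Units.val_one])
  apply Units.ext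
  exact this.symm

/-- (P4) the level `V` (field `L'`). -/
theorem P_levelV (h : S55Hyp p S M) :
    ∃ V ∈ (levS S).mem, FixesMu p V ∧ (∀ s ∈ V, ∀ m : RepM M, s • m = m) ∧
      ∀ s ∈ V, ∀ n : RepM (Ndual M), s • n = n := by
  obtain ⟨Uμ, hUμ, hμ⟩ := PL_exists_level_mu S p h.hpS
  haveI := (levS S).normal Uμ hUμ
  haveI : Finite M := (P_finite S M h).1
  obtain ⟨Fμ, hfdμ, hstμ, hurμ, rfl⟩ := hUμ
  choose Fm hFm hfix using h.hsm
  haveI := hFm
  haveI := hfdμ
  have hfd : FiniteDimensional ℚ ((⨆ m, Fm m) ⊔ Fμ : IntermediateField ℚ Qbar) := by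
    haveI : FiniteDimensional ℚ (⨆ m, Fm m : IntermediateField ℚ Qbar) :=
      IntermediateField.finiteDimensional_iSup_of_finite
    exact IntermediateField.finiteDimensional_sup _ _
  have hV : (MonoidHom.ker M.ρ ⊓ Fμ.fixingSubgroup) ∈ (levS S).mem := by
    refine PL_mem_levS_of_le S _ ((⨆ m, Fm m) ⊔ Fμ) hfd ?_ ?_
    · intro s hs
      refine ⟨?_, IntermediateField.fixingSubgroup_antitone le_sup_right hs⟩
      show s ∈ MonoidHom.ker M.ρ
      rw [MonoidHom.mem_ker]
      ext m
      exact hfix m s (IntermediateField.fixingSubgroup_antitone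
        ((le_iSup Fm m).trans le_sup_left) hs)
    · intro q hq A hA g hg
      exact ⟨MonoidHom.mem_ker.2 (h.hMur q hq A hA g hg), hurμ.2 q hq A hA hg⟩
  refine ⟨_, hV, fun s hs => hμ s hs.2, fun s hs m => ?_, fun s hs n => ?_⟩
  · have h1 : M.ρ s = 1 := MonoidHom.mem_ker.1 hs.1
    show M.ρ s m = m
    rw [h1]; rfl
  · have h1 : M.ρ s⁻¹ = 1 := MonoidHom.mem_ker.1 (inv_mem hs.1)
    have h2 : cycloChar p s = 1 := P_cyclo_eq_one s (hμ s hs.2)
    have h3 : ∀ f : Module.Dual (ZMod p) M, (Ndual M).ρ s f = f := by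
      intro f
      rw [Rep.dualTwist_ρ_apply, h1, h2, Units.val_one, one_smul]
      rfl
    exact h3 n

end

end Fermat.Agent.S55Lib
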