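import Fermat.Agent.S55.P.LevelV
import Fermat.Agent.S55.E.Btor
import Fermat.Agent.S55.F.RootF

/-!
# S55, chapter P: `M = Hom(N, E)`
-/

set_option autoImplicit false
set_option linter.unusedSectionVars false
set_option linter.unusedVariables false
set_option linter.style.haveILetI false

namespace Fermat.Agent.S55Lib

noncomputable section

open groupCohomology ExtCitation CategoryTheory

variable {p : ℕ} [Fact p.Prime] (S : Finset Nat.Primes)
  (M : Rep (ZMod p) GQ)

/-- `k ↦ ζ^k`, `ℤ/p → E` -/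
def P_eps (w : ES S) (hw : w ^ p = 1) : ZMod p →+ EA S :=
  ZMod.lift p ⟨zmultiplesHom (EA S) (Additive.ofMul w), by
    show (p : ℤ) • Additive.ofMul w = 0
    rw [natCast_zsmul]
    exact congrArg Additive.ofMul hw⟩

lemma P_eps_natCast (w : ES S) (hw : w ^ p = 1) (i : ℕ) :
    P_eps S w hw (i : ZMod p) = Additive.ofMul (w ^ i) := by
  have h1 : ((i : ℤ) : ZMod p) = (i : ZMod p) := by push_cast; rfl
  rw [← h1, P_eps, ZMod.lift_coe]
  show (i : ℤ) • Additive.ofMul w = _
  rw [natCast_zsmul]
  rfl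

lemma P_eps_eq (w : ES S) (hw : w ^ p = 1) (k : ZMod p) :
    P_eps S w hw k = Additive.ofMul (w ^ k.val) := by
  haveI : NeZero p := ⟨(Fact.out : p.Prime).ne_zero⟩
  conv_lhs => rw [← ZMod.natCast_zmod_val k]
  exact P_eps_natCast S w hw _

/-- the evaluation pairing `N × M → ℤ/p` -/
def P_ev (n : RepM (Ndual M)) (m : RepM M) : ZMod p :=
  (show Module.Dual (ZMod p) M from n) (show M from m)

lemma P_ev_zero_left (m : RepM M) : P_ev M 0 m = 0 := rfl
lemma P_ev_add_left (n n' : RepM (Ndual M)) (m : RepM M) :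
    P_ev M (n + n') m = P_ev M n m + P_ev M n' m := rfl
lemma P_ev_zero_right (n : RepM (Ndual M)) : P_ev M n 0 = 0 :=
  map_zero (show Module.Dual (ZMod p) M from n)
lemma P_ev_add_right (n : RepM (Ndual M)) (m m' : RepM M) :
    P_ev M n (m + m') = P_ev M n m + P_ev M n m' :=
  map_add (show Module.Dual (ZMod p) M from n) _ _
lemma P_ev_smul (g : GQ) (n : RepM (Ndual M)) (m : RepM M) :
    P_ev M (g • n) m = ((cycloChar p g : (ZMod p)ˣ) : ZMod p) * P_ev M n (g⁻¹ • m) := rfl

lemma P_ev_sep (m : RepM M) (h : ∀ n, P_ev M n m = 0) : m = 0 :=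
  (Module.forall_dual_apply_eq_zero_iff (ZMod p) (show M from m)).1 h

lemma P_ev_surj [FiniteDimensional (ZMod p) M] (l : RepM (Ndual M) →+ ZMod p) :
    ∃ m : RepM M, ∀ n, P_ev M n m = l n := by
  let l' : Module.Dual (ZMod p) M →+ ZMod p := l
  let L : Module.Dual (ZMod p) (Module.Dual (ZMod p) M) := AddMonoidHom.toZModLinearMap p l'
  refine ⟨((Module.evalEquiv (ZMod p) M).symm L : M), fun n => ?_⟩
  exact Module.apply_evalEquiv_symm_apply (ZMod p) M (show Module.Dual (ZMod p) M from n) L

/-- (P3) `M = Hom(N, E)`. -/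
theorem P_Phi (h : S55Hyp p S M) :
    ∃ Φ : RepM M →+ HomM GQ (RepM (Ndual M)) (EA S), Equivar GQ Φ ∧ Function.Bijective Φ := by
  haveI : NeZero p := ⟨(Fact.out : p.Prime).ne_zero⟩
  haveI := h.fin
  obtain ⟨ζ, hζ⟩ := E_exists_prim p
  have hζ0 : ζ ≠ 0 := hζ.ne_zero (Fact.out : p.Prime).ne_zero
  have hzp : (Units.mk0 ζ hζ0) ^ p = 1 := by
    apply Units.ext
    rw [Units.val_pow_eq_pow_val, Units.val_mk0, hζ.pow_eq_one, Units.val_one]
  let w : ES S := ⟨Units.mk0 ζ hζ0, E_mu_mem_ES S h.hpS _ hzp⟩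
  have hw : w ^ p = 1 := Subtype.ext hzp
  have hwval : ∀ i : ℕ, (((w ^ i : ES S) : Qbarˣ) : Qbar) = ζ ^ i := by
    intro i
    show (((Units.mk0 ζ hζ0) ^ i : Qbarˣ) : Qbar) = ζ ^ i
    rw [Units.val_pow_eq_pow_val, Units.val_mk0]
  let eps := P_eps S w hw
  -- injectivity
  have e1 : Function.Injective eps := by
    rw [injective_iff_map_eq_zero]
    intro k hk
    have h1 : w ^ k.val = 1 := by
      have := (P_eps_eq S w hw k).symm.trans hk
      exact this
    have h2 : ζ ^ k.val = 1 := by
      rw [← hwval, h1]; rfl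
    have h3 := hζ.dvd_of_pow_eq_one _ h2
    rw [← ZMod.natCast_zmod_val k, (ZMod.natCast_eq_zero_iff _ _).2 h3]
  -- image
  have e2 : ∀ x : EA S, p • x = 0 → ∃ k, eps k = x := by
    intro x hx
    have h1 : (Additive.toMul x : ES S) ^ p = 1 := hx
    have h2 : (((Additive.toMul x : ES S) : Qbarˣ) : Qbar) ^ p = 1 := by
      have := congrArg (fun y : ES S => ((y : Qbarˣ) : Qbar)) h1
      simpa using this
    obtain ⟨i, -, hi⟩ := hζ.eq_pow_of_pow_eq_one h2
    refine ⟨(i : ZMod p), ?_⟩
    show P_eps S w hw _ = x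
    rw [P_eps_natCast]
    apply congrArg Additive.ofMul (a₂ := Additive.toMul x)
    apply Subtype.ext
    apply Units.ext
    rw [hwval, hi]
  -- Galois action
  have e3 : ∀ (g : GQ) (k : ZMod p), g • eps k = eps ((cycloChar p g : ZMod p) * k) := by
    intro g k
    show g • P_eps S w hw k = P_eps S w hw _
    have h1 : ((cycloChar p g : ZMod p) * k)
        = (((cycloChar p g : ZMod p).val * k.val : ℕ) : ZMod p) := by
      push_cast
      rw [ZMod.natCast_zmod_val, ZMod.natCast_zmod_val]
    rw [h1, P_eps_natCast, P_eps_eq]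
    apply congrArg Additive.ofMul
    apply Subtype.ext
    apply Units.ext
    show g (((w ^ k.val : ES S) : Qbarˣ) : Qbar) = _
    rw [hwval, hwval, map_pow, P_cyclo_spec g ζ hζ.pow_eq_one, ← pow_mul]
  -- the map
  let Φ : RepM M →+ HomM GQ (RepM (Ndual M)) (EA S) :=
    { toFun := fun m => HomM.of
        { toFun := fun n => eps (P_ev M n m)
          map_zero' := by rw [P_ev_zero_left, map_zero]
          map_add' := fun n n' => by rw [P_ev_add_left, map_add] }
      map_zero' := by
        apply HomM.ext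
        intro n
        show eps (P_ev M n 0) = 0
        rw [P_ev_zero_right, map_zero]
      map_add' := fun m m' => by
        apply HomM.ext
        intro n
        show eps (P_ev M n (m + m')) = eps (P_ev M n m) + eps (P_ev M n m')
        rw [P_ev_add_right, map_add] }
  have hΦ : ∀ (m : RepM M) (n : RepM (Ndual M)), Φ m n = eps (P_ev M n m) :=
    fun _ _ => rfl
  refine ⟨Φ, ?_, ?_, ?_⟩
  · intro g m
    apply HomM.ext
    intro n
    rw [HomM.smul_apply, hΦ, hΦ, e3, P_ev_smul, inv_inv, ← mul_assoc,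
      ← Units.val_mul, ← map_mul, mul_inv_cancel, map_one, Units.val_one, one_mul]
  · rw [injective_iff_map_eq_zero]
    intro m hm
    apply P_ev_sep M
    intro n
    have h2 : Φ m n = 0 := by rw [hm]; rfl
    rw [hΦ] at h2
    exact e1 (h2.trans (map_zero eps).symm)
  · intro φ
    have h1 : ∀ n : RepM (Ndual M), ∃ k, eps k = φ n := by
      intro n
      apply e2
      rw [← map_nsmul, P_ptors, map_zero]
    choose l hl using h1
    let l' : RepM (Ndual M) →+ ZMod p :=
      { toFun := l
        map_zero' := by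
          apply e1
          rw [hl, map_zero, map_zero]
        map_add' := fun n n' => by
          apply e1
          rw [hl, map_add, map_add, hl, hl] }
    obtain ⟨m, hm⟩ := P_ev_surj M l'
    refine ⟨m, ?_⟩
    apply HomM.ext
    intro n
    rw [hΦ, hm, ← hl]
    rfl

end

end Fermat.Agent.S55Lib
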