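import Fermat.Agent.S55.P.Arch
import Fermat.Agent.S55.B.ThmB2

/-!
# S55, chapter P: `sha₁` at a finite level
-/

set_option autoImplicit false
set_option linter.unusedSectionVars false
set_option linter.unusedVariables false
set_option linter.style.haveILetI false

namespace Fermat.Agent.S55Lib

noncomputable section

open groupCohomology ExtCitation CategoryTheory

/-! ### dictionary -/

section Dict

variable {k G H : Type} [CommRing k] [Group G] [Group H] (A : Rep k G)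

lemma P_mem_cocycles₁_iff (f : G → A) :
    f ∈ cocycles₁ A ↔ IsCocycle₁ (show G → RepM A from f) :=
  mem_cocycles₁_iff f

lemma P_mem_coboundaries₁_iff (f : G → A) :
    f ∈ coboundaries₁ A ↔ IsCoboundary₁ (show G → RepM A from f) := by
  constructor
  · rintro ⟨x, rfl⟩
    exact ⟨x, fun g => rfl⟩
  · rintro ⟨x, hx⟩
    exact ⟨x, funext hx⟩

lemma P_res_H1π (r : H →* G) (c : cocycles₁ A) :
    (groupCohomology.map r (𝟙 (Rep.res r A)) 1).hom ((H1π A).hom c) = 0 ↔
      IsCoboundary₁ (loc₁ r (WRes.mk r (RepM A)) (show G → RepM A from c.1)) := by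
  have h1 := H1π_comp_map_apply r (𝟙 (Rep.res r A)) c
  have h2 : (groupCohomology.map r (𝟙 (Rep.res r A)) 1).hom ((H1π A).hom c)
      = (H1π (Rep.res r A)).hom ((mapCocycles₁ r (𝟙 (Rep.res r A))).hom c) := h1
  rw [h2]
  have h3 := H1π_eq_zero_iff ((mapCocycles₁ r (𝟙 (Rep.res r A))).hom c)
  refine h3.trans ?_
  rw [P_mem_coboundaries₁_iff]
  rfl

lemma P_loc₁_isCocycle₁ (r : H →* G) {B : Type} [AddCommGroup B]
    [DistribMulAction G B] {f : G → B} (hf : IsCocycle₁ f) :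
    IsCocycle₁ (loc₁ r (WRes.mk r B) f) := by
  intro g h
  have := hf (r g) (r h)
  simp only [loc₁, map_mul]
  exact this

end Dict

variable {p : ℕ} [Fact p.Prime] (S : Finset Nat.Primes)
  (N : Rep (ZMod p) GQ)

lemma P_mem_sha₁_iff (hp2 : p ≠ 2) (c : cocycles₁ N) (hc : IsLevelConstantS₁ S c) :
    (H1π N).hom c ∈ sha₁ S N ↔
      ∀ v : S, IsCoboundary₁ (loc₁ (rs S v) (WRes.mk (rs S v) (RepM N))
        (show GQ → RepM N from c.1)) := by
  rw [sha₁, Submodule.mem_inf, LinearMap.mem_ker, funext_iff]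
  constructor
  · rintro ⟨-, h⟩ v
    exact (P_res_H1π N (rs S v) c).1 (h (Sum.inr v))
  · intro h
    refine ⟨(mem_continuousH1S_iff S N _).2 ⟨c, hc, rfl⟩, fun v => ?_⟩
    rcases v with v | v
    · refine (P_res_H1π N archimedeanLoc c).2 ?_
      exact P_cob₁_of_coprime p (A := WRes archimedeanLoc (RepM N))
        (fun a => P_ptors N a) (P_arch_coprime hp2)
        (P_loc₁_isCocycle₁ archimedeanLoc ((P_mem_cocycles₁_iff N c.1).1 c.2))
    · exact (P_res_H1π N (rs S v) c).2 (h v)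

/-! ### cocycles of the finite quotient with local conditions -/

section ZZ

variable (Q : Type) [Group Q] (N' : Type) [AddCommGroup N'] [DistribMulAction Q N']
    {ι : Type} (D : ι → Type) [∀ v, Group (D v)] (ρ : ∀ v, D v →* Q)

/-- 1-cocycles that are locally coboundaries -/
def P_ShaZ1 : AddSubgroup (Z1 Q N') where
  carrier := {f | ∀ v, ∃ n : N', ∀ d : D v, (f : Q → N') (ρ v d) = ρ v d • n - n}
  zero_mem' := fun v => ⟨0, fun d => by simp⟩
  add_mem' := by
    intro f f' hf hf' v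
    obtain ⟨x, hx⟩ := hf v
    obtain ⟨y, hy⟩ := hf' v
    exact ⟨x + y, fun d => by
      simp only [AddSubgroup.coe_add, Pi.add_apply, hx d, hy d, smul_add]; abel⟩
  neg_mem' := by
    intro f hf v
    obtain ⟨x, hx⟩ := hf v
    exact ⟨-x, fun d => by
      simp only [AddSubgroup.coe_neg, Pi.neg_apply, hx d, smul_neg]; abel⟩

/-- the projection onto `Ш¹` -/
def P_ShaZ1_proj : P_ShaZ1 Q N' D ρ →+ Sha1' Q N' D ρ where
  toFun f := ⟨H1.mk f.1, f.1, rfl, f.2⟩
  map_zero' := rfl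
  map_add' _ _ := rfl

lemma P_ShaZ1_proj_surjective : Function.Surjective (P_ShaZ1_proj Q N' D ρ) := by
  rintro ⟨_, f, rfl, hf⟩
  exact ⟨⟨f, hf⟩, rfl⟩

lemma P_ShaZ1_proj_eq_zero (f : P_ShaZ1 Q N' D ρ) :
    P_ShaZ1_proj Q N' D ρ f = 0 ↔ IsCoboundary₁ (f.1 : Q → N') := by
  rw [Subtype.ext_iff]
  exact H1.mk_eq_zero

end ZZ

/-- (P2), for a general module -/
theorem P_sha1_aux (hp2 : p ≠ 2) (U : Subgroup GQ) [U.Normal] (hU : U ∈ (levS S).mem)
    (htriv : ∀ s ∈ U, ∀ n : RepM N, s • n = n)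
    (hUN : ∀ f ∈ LZ1 (levS S) (RepM N), ∀ s ∈ U, f s = 0) :
    Nonempty (sha₁ S N ≃+ Sha1' (GQ ⧸ U) (WDefl U (RepM N) htriv)
      (fun v : S => Hs S v ⧸ U.comap (rs S v)) (fun v => quotMap (rs S v) U)) := by
  -- inflation
  have hinfl : ∀ f : Z1 (GQ ⧸ U) (WDefl U (RepM N) htriv),
      (show GQ → N from fun g => (f : GQ ⧸ U → WDefl U (RepM N) htriv) (g : GQ ⧸ U))
        ∈ cocycles₁ N := by
    intro f
    rw [P_mem_cocycles₁_iff]
    intro g h
    exact f.2 (g : GQ ⧸ U) (h : GQ ⧸ U)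
  have hlev : ∀ f : Z1 (GQ ⧸ U) (WDefl U (RepM N) htriv), IsLevelConstantS₁ S
      (show GQ → N from fun g => (f : GQ ⧸ U → WDefl U (RepM N) htriv) (g : GQ ⧸ U)) := by
    intro f
    rw [PL_const₁_iff]
    refine ⟨U, hU, fun g s hs => ?_⟩
    show (f : GQ ⧸ U → WDefl U (RepM N) htriv) ((g * s : GQ) : GQ ⧸ U) = _
    rw [QuotientGroup.mk_mul_of_mem g hs]
  have hloc : ∀ f : Z1 (GQ ⧸ U) (WDefl U (RepM N) htriv),
      (∀ v : S, ∃ n : WDefl U (RepM N) htriv, ∀ d : Hs S v ⧸ U.comap (rs S v),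
        (f : GQ ⧸ U → WDefl U (RepM N) htriv) (quotMap (rs S v) U d)
          = quotMap (rs S v) U d • n - n) ↔
      ∀ v : S, IsCoboundary₁ (loc₁ (rs S v) (WRes.mk (rs S v) (RepM N))
        (show GQ → RepM N from fun g => (f : GQ ⧸ U → WDefl U (RepM N) htriv) (g : GQ ⧸ U))) := by
    intro f
    refine forall_congr' (fun v => ?_)
    constructor
    · rintro ⟨n, hn⟩
      exact ⟨n, fun h => (hn (h : Hs S v ⧸ U.comap (rs S v))).symm⟩
    · rintro ⟨n, hn⟩
      refine ⟨n, fun d => ?_⟩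
      induction d using QuotientGroup.induction_on with
      | H h => exact (hn h).symm
  let φ₁ : P_ShaZ1 (GQ ⧸ U) (WDefl U (RepM N) htriv)
      (fun v : S => Hs S v ⧸ U.comap (rs S v)) (fun v => quotMap (rs S v) U) →+ sha₁ S N :=
    { toFun := fun f => ⟨(H1π N).hom ⟨_, hinfl f.1⟩,
        (P_mem_sha₁_iff S N hp2 ⟨_, hinfl f.1⟩ (hlev f.1)).2 ((hloc f.1).1 f.2)⟩
      map_zero' := by
        apply Subtype.ext
        exact map_zero (H1π N).hom
      map_add' := fun f f' => by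
        apply Subtype.ext
        exact map_add (H1π N).hom ⟨_, hinfl f.1⟩ ⟨_, hinfl f'.1⟩ }
  refine P_equiv_of_surj φ₁ (P_ShaZ1_proj _ _ _ _) ?_ (P_ShaZ1_proj_surjective _ _ _ _) ?_
  · rintro ⟨x, hx⟩
    obtain ⟨c, hc, rfl⟩ := (mem_continuousH1S_iff S N x).1 hx.1
    have hcZ : IsCocycle₁ (show GQ → RepM N from c.1) := (P_mem_cocycles₁_iff N c.1).1 c.2
    have hc0 : ∀ s ∈ U, (show GQ → RepM N from c.1) s = 0 :=
      hUN _ ⟨hcZ, (PL_const₁_iff S _).1 hc⟩
    have hcU : ∀ a b : GQ, a⁻¹ * b ∈ U →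
        (show GQ → RepM N from c.1) a = (show GQ → RepM N from c.1) b := by
      intro a b hab
      have h1 := hcZ a (a⁻¹ * b)
      rw [mul_inv_cancel_left, hc0 _ hab, smul_zero, zero_add] at h1
      exact h1.symm
    let f : GQ ⧸ U → WDefl U (RepM N) htriv := fun q =>
      Quotient.liftOn' q (show GQ → RepM N from c.1)
        (fun a b hab => hcU a b (QuotientGroup.leftRel_apply.1 hab))
    have hf : f ∈ Z1 (GQ ⧸ U) (WDefl U (RepM N) htriv) := by
      intro q q'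
      induction q using QuotientGroup.induction_on with
      | H g =>
        induction q' using QuotientGroup.induction_on with
        | H g' => exact hcZ g g'
    refine ⟨⟨⟨f, hf⟩, (hloc ⟨f, hf⟩).2 ((P_mem_sha₁_iff S N hp2 c hc).1 hx)⟩, rfl⟩
  · intro f
    rw [P_ShaZ1_proj_eq_zero, Subtype.ext_iff]
    show (H1π N).hom ⟨_, hinfl f.1⟩ = 0 ↔ _
    refine (H1π_eq_zero_iff _).trans ?_
    refine (P_mem_coboundaries₁_iff N _).trans ?_
    constructor
    · rintro ⟨n, hn⟩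
      refine ⟨n, fun q => ?_⟩
      induction q using QuotientGroup.induction_on with
      | H g => exact hn g
    · rintro ⟨n, hn⟩
      exact ⟨n, fun g => hn (g : GQ ⧸ U)⟩

/-- (P2) `sha₁` at a finite level `U` killing all `S`-level cocycles. -/
theorem P_sha1 (M : Rep (ZMod p) GQ) (h : S55Hyp p S M) (U : Subgroup GQ) [U.Normal]
    (hU : U ∈ (levS S).mem)
    (htriv : ∀ s ∈ U, ∀ n : RepM (Ndual M), s • n = n)
    (hUN : ∀ f ∈ LZ1 (levS S) (RepM (Ndual M)), ∀ s ∈ U, f s = 0) :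
    Nonempty (sha₁ S (Ndual M) ≃+ Sha1' (GQ ⧸ U) (WDefl U (RepM (Ndual M)) htriv)
      (fun v : S => Hs S v ⧸ U.comap (rs S v)) (fun v => quotMap (rs S v) U)) :=
  P_sha1_aux S (Ndual M) h.hp2 U hU htriv hUN

end

end Fermat.Agent.S55Lib
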