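import Fermat.Agent.S55.P.Arch

/-!
# S55, chapter P: `sha₂` is the formal `Ш²`
-/

set_option autoImplicit false
set_option linter.unusedSectionVars false
set_option linter.unusedVariables false
set_option linter.style.haveILetI false

namespace Fermat.Agent.S55Lib

noncomputable section

open groupCohomology ExtCitation CategoryTheory

/-! ### dictionary -/

section Dict

variable {k G : Type} [CommRing k] [Group G] (A : Rep k G)

lemma P_mem_cocycles₂_iff (f : G × G → A) :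
    f ∈ cocycles₂ A ↔ IsCocycle₂ (show G × G → RepM A from f) :=
  mem_cocycles₂_iff f

lemma P_d₁₂_eq (x : G → A) :
    (d₁₂ A).hom x = d12 (RepM A) (show G → RepM A from x) := by
  funext g
  exact d₁₂_hom_apply A x g

end Dict

variable {p : ℕ} [Fact p.Prime] (S : Finset Nat.Primes)
  (M : Rep (ZMod p) GQ)

lemma P_mem_levelCocyclesS₂_iff (f : GQ × GQ → M) :
    f ∈ levelCocyclesS₂ S M ↔ (show GQ × GQ → RepM M from f) ∈ LZ2 (levS S) (RepM M) := by
  rw [mem_levelCocyclesS₂_iff, P_mem_cocycles₂_iff, PL_const₂_iff]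
  rfl

lemma P_mem_levelCoboundariesS₂_iff (f : GQ × GQ → M) :
    f ∈ levelCoboundariesS₂ S M ↔ (show GQ × GQ → RepM M from f) ∈ LB2 (levS S) (RepM M) := by
  rw [mem_levelCoboundariesS₂_iff]
  constructor
  · rintro ⟨x, hx, rfl⟩
    exact ⟨x, (PL_const₁_iff S x).1 hx, (P_d₁₂_eq M x).symm⟩
  · rintro ⟨x, hx, rfl⟩
    exact ⟨x, (PL_const₁_iff S x).2 hx, P_d₁₂_eq M x⟩

/-- the local condition -/
lemma P_locRes₂_eq_zero_iff {H : Type} [Group H] (r : H →* GQ) (f : levelCocyclesS₂ S M) :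
    locRes₂S S M r (continuousH2Sπ S M f) = 0 ↔
      loc₂ r (WRes.mk r (RepM M)) (show GQ × GQ → RepM M from f.1)
        ∈ LB2 (levAll.comap r) (WRes r (RepM M)) := by
  have h1 : locRes₂S S M r (continuousH2Sπ S M f) = continuousH2π r (Rep.res r M)
      (levelCocycles₂Map (rH := MonoidHom.id _) (rG := r) r (fun _ => rfl)
        (LinearMap.id : M →ₗ[ZMod p] Rep.res r M) (fun _ _ => rfl)
        (levelCocyclesS₂ToLevelCocycles₂ S M f)) := rfl
  rw [h1, continuousH2π_eq_zero_iff, mem_levelCoboundaries₂_iff]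
  constructor
  · rintro ⟨x, hx, hxf⟩
    refine ⟨x, (PL_loc_const₁_iff r x).1 hx, ?_⟩
    rw [P_d₁₂_eq] at hxf
    exact hxf
  · rintro ⟨x, hx, hxf⟩
    refine ⟨x, (PL_loc_const₁_iff r x).2 hx, ?_⟩
    exact (P_d₁₂_eq (Rep.res r M) (show H → Rep.res r M from x)).trans hxf

lemma P_loc₂_isCocycle₂ {G H : Type} [Group G] [Group H] (r : H →* G) {A : Type} [AddCommGroup A]
    [DistribMulAction G A] {f : G × G → A} (hf : IsCocycle₂ f) :
    IsCocycle₂ (loc₂ r (WRes.mk r A) f) := by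
  intro g h j
  have := hf (r g) (r h) (r j)
  simp only [loc₂, map_mul]
  exact this

/-- the archimedean condition is void -/
lemma P_arch_loc₂ (hp2 : p ≠ 2) {f : GQ × GQ → RepM M} (hf : IsCocycle₂ f) :
    loc₂ archimedeanLoc (WRes.mk archimedeanLoc (RepM M)) f
      ∈ LB2 (levAll.comap archimedeanLoc) (WRes archimedeanLoc (RepM M)) := by
  obtain ⟨x, hx⟩ := P_cob₂_of_coprime p (A := WRes archimedeanLoc (RepM M))
    (fun a => P_ptors M a) (P_arch_coprime hp2) (P_loc₂_isCocycle₂ archimedeanLoc hf)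
  exact ⟨x, P_arch_const x, funext fun gh => hx gh.1 gh.2⟩

lemma P_mem_sha₂_iff (hp2 : p ≠ 2) (f : levelCocyclesS₂ S M) :
    continuousH2Sπ S M f ∈ sha₂ S M ↔
      ∀ v : S, loc₂ (rs S v) (WRes.mk (rs S v) (RepM M)) (show GQ × GQ → RepM M from f.1)
        ∈ LB2 (levAll.comap (rs S v)) (WRes (rs S v) (RepM M)) := by
  rw [sha₂, LinearMap.mem_ker, funext_iff]
  constructor
  · intro h v
    exact (P_locRes₂_eq_zero_iff S M (rs S v) f).1 (h (Sum.inr v))
  · intro h v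
    rcases v with v | v
    · refine (P_locRes₂_eq_zero_iff S M archimedeanLoc f).2 (P_arch_loc₂ M hp2 ?_)
      exact ((P_mem_levelCocyclesS₂_iff S M f.1).1 f.2).1
    · exact (P_locRes₂_eq_zero_iff S M (rs S v) f).2 (h v)

/-- (P1) `sha₂` is the formal `Ш²` (the archimedean condition is void). -/
theorem P_sha2 (h : S55Hyp p S M) :
    Nonempty (sha₂ S M ≃+ LSha2 (levS S) (RepM M) (Hs S) (fun v => levAll.comap (rs S v)) (rs S)
      (fun v => WRes (rs S v) (RepM M)) (fun v => WRes.mk (rs S v) (RepM M))) := by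
  have hZ1 : ∀ f : ShaZ2 (levS S) (fun v : S => levAll.comap (rs S v)) (rs S)
      (fun v => WRes.mk (rs S v) (RepM M)), (show GQ × GQ → M from f.1) ∈ levelCocyclesS₂ S M :=
    fun f => (P_mem_levelCocyclesS₂_iff S M _).2 (mem_ShaZ2.1 f.2).1
  let φ₁ : ↥(ShaZ2 (levS S) (fun v : S => levAll.comap (rs S v)) (rs S)
      (fun v => WRes.mk (rs S v) (RepM M))) →+ sha₂ S M :=
    { toFun := fun f => ⟨continuousH2Sπ S M ⟨f.1, hZ1 f⟩,
        (P_mem_sha₂_iff S M h.hp2 ⟨f.1, hZ1 f⟩).2 (mem_ShaZ2.1 f.2).2⟩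
      map_zero' := rfl
      map_add' := fun f f' => rfl }
  let φ₂ : ↥(ShaZ2 (levS S) (fun v : S => levAll.comap (rs S v)) (rs S)
      (fun v => WRes.mk (rs S v) (RepM M))) →+
      LSha2 (levS S) (RepM M) (Hs S) (fun v => levAll.comap (rs S v)) (rs S)
      (fun v => WRes (rs S v) (RepM M)) (fun v => WRes.mk (rs S v) (RepM M)) :=
    { toFun := fun f => ⟨QuotientAddGroup.mk (⟨f.1, (mem_ShaZ2.1 f.2).1⟩ : LZ2 (levS S) (RepM M)),
        ⟨⟨f.1, (mem_ShaZ2.1 f.2).1⟩, rfl, (mem_ShaZ2.1 f.2).2⟩⟩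
      map_zero' := rfl
      map_add' := fun f f' => rfl }
  refine P_equiv_of_surj φ₁ φ₂ ?_ ?_ ?_
  · rintro ⟨x, hx⟩
    obtain ⟨f, rfl⟩ := Submodule.mkQ_surjective _ x
    refine ⟨⟨f.1, mem_ShaZ2.2 ⟨(P_mem_levelCocyclesS₂_iff S M f.1).1 f.2,
      (P_mem_sha₂_iff S M h.hp2 f).1 hx⟩⟩, rfl⟩
  · rintro ⟨_, f, rfl, hf⟩
    exact ⟨⟨f.1, mem_ShaZ2.2 ⟨f.2, hf⟩⟩, rfl⟩
  · intro f
    rw [Subtype.ext_iff, Subtype.ext_iff]
    show continuousH2Sπ S M ⟨f.1, hZ1 f⟩ = 0 ↔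
      (QuotientAddGroup.mk (⟨f.1, (mem_ShaZ2.1 f.2).1⟩ : LZ2 (levS S) (RepM M)) :
        LH2 (levS S) (RepM M)) = 0
    rw [continuousH2Sπ_eq_zero_iff, QuotientAddGroup.eq_zero_iff, AddSubgroup.mem_addSubgroupOf]
    exact P_mem_levelCoboundariesS₂_iff S M f.1

end

end Fermat.Agent.S55Lib
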