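import Fermat.Agent.S55.P.Basic
import Fermat.Agent.S55.P.Places
import Fermat.Agent.S55.W.Arith
import Fermat.Agent.S55.B.Norm

/-!
# S55, chapter P: generalities on quotients, the archimedean place
-/

set_option autoImplicit false
set_option linter.unusedSectionVars false
set_option linter.unusedVariables false
set_option linter.style.haveILetI false

namespace Fermat.Agent.S55Lib

noncomputable section

open groupCohomology ExtCitation CategoryTheory

/-! ### generalities -/

lemma P_equiv_of_surj {Z X₁ X₂ : Type*} [AddCommGroup Z] [AddCommGroup X₁] [AddCommGroup X₂]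
    (φ₁ : Z →+ X₁) (φ₂ : Z →+ X₂) (h₁ : Function.Surjective φ₁) (h₂ : Function.Surjective φ₂)
    (hk : ∀ z, φ₁ z = 0 ↔ φ₂ z = 0) : Nonempty (X₁ ≃+ X₂) := by
  have hker : φ₁.ker = φ₂.ker := by
    ext z
    exact hk z
  exact ⟨(QuotientAddGroup.quotientKerEquivOfSurjective φ₁ h₁).symm.trans
    ((QuotientAddGroup.quotientAddEquivOfEq hker).trans
      (QuotientAddGroup.quotientKerEquivOfSurjective φ₂ h₂))⟩

lemma P_cob₂_of_coprime {H : Type} [Group H] [Finite H] {A : Type} [AddCommGroup A]
    [DistribMulAction H A] (p : ℕ) (hpA : ∀ a : A, p • a = 0) (hcop : (Nat.card H).Coprime p)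
    {f : H × H → A} (hf : IsCocycle₂ f) : IsCoboundary₂ f := by
  have h1 : Nat.card H • f ∈ B2 H A := card_smul_isCoboundary₂ hf
  obtain ⟨a, b, hab⟩ := Nat.isCoprime_iff_coprime.2 hcop
  have h2 : f = a • (Nat.card H • f) := by
    have h3 : p • f = 0 := by
      funext x
      exact hpA (f x)
    calc f = (a * (Nat.card H : ℤ) + b * (p : ℤ)) • f := by rw [hab, one_smul]
      _ = a • (Nat.card H • f) + b • (p • f) := by
        rw [add_smul, mul_smul, mul_smul, natCast_zsmul, natCast_zsmul]
      _ = a • (Nat.card H • f) := by rw [h3, smul_zero, add_zero]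
  rw [h2]
  exact (B2 H A).zsmul_mem h1 a

lemma P_cob₁_of_coprime {H : Type} [Group H] [Finite H] {A : Type} [AddCommGroup A]
    [DistribMulAction H A] (p : ℕ) (hpA : ∀ a : A, p • a = 0) (hcop : (Nat.card H).Coprime p)
    {f : H → A} (hf : IsCocycle₁ f) : IsCoboundary₁ f := by
  have h1 : Nat.card H • f ∈ B1 H A := card_smul_isCoboundary₁ hf
  obtain ⟨a, b, hab⟩ := Nat.isCoprime_iff_coprime.2 hcop
  have h2 : f = a • (Nat.card H • f) := by
    have h3 : p • f = 0 := by
      funext x
      exact hpA (f x)
    calc f = (a * (Nat.card H : ℤ) + b * (p : ℤ)) • f := by rw [hab, one_smul]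
      _ = a • (Nat.card H • f) + b • (p • f) := by
        rw [add_smul, mul_smul, mul_smul, natCast_zsmul, natCast_zsmul]
      _ = a • (Nat.card H • f) := by rw [h3, smul_zero, add_zero]
  rw [h2]
  exact (B1 H A).zsmul_mem h1 a

/-! ### the archimedean place -/

lemma P_arch_mem (s : GQ) (hs : s ∈ archimedeanDecomposition) :
    s = 1 ∨ s = complexConjugation := by
  obtain ⟨k, rfl⟩ := Subgroup.mem_zpowers_iff.1 hs
  rcases Int.even_or_odd' k with ⟨m, rfl | rfl⟩
  · left
    rw [zpow_mul, zpow_ofNat, complexConjugation_sq, one_zpow]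
  · right
    rw [zpow_add, zpow_mul, zpow_ofNat, complexConjugation_sq, one_zpow, one_mul, zpow_one]

instance P_arch_finite : Finite archimedeanDecomposition := by
  have : (archimedeanDecomposition : Set GQ) ⊆ {1, complexConjugation} := fun s hs => by
    rcases P_arch_mem s hs with h | h <;> simp [h]
  exact ((Set.toFinite {1, complexConjugation}).subset this)

lemma P_arch_card_dvd : Nat.card archimedeanDecomposition ∣ 2 := by
  show Nat.card (Subgroup.zpowers complexConjugation) ∣ 2
  rw [Nat.card_zpowers]
  exact orderOf_dvd_of_pow_eq_one complexConjugation_sq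

lemma P_arch_coprime {p : ℕ} [Fact p.Prime] (hp2 : p ≠ 2) :
    (Nat.card archimedeanDecomposition).Coprime p := by
  have h1 : Nat.Coprime 2 p :=
    (Nat.coprime_primes Nat.prime_two Fact.out).2 (Ne.symm hp2)
  exact Nat.Coprime.coprime_dvd_left P_arch_card_dvd h1

/-- every function on the archimedean decomposition group is level constant -/
lemma P_arch_const {X : Type*} (x : archimedeanDecomposition → X) :
    (levAll.comap archimedeanLoc).Const₁ x := by
  have key : ∃ U ∈ levAll.mem, ∀ s : archimedeanDecomposition, (s : GQ) ∈ U → s = 1 := by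
    by_cases hc : complexConjugation = 1
    · obtain ⟨U, hU⟩ := levAll.nonempty
      refine ⟨U, hU, fun s _ => Subtype.ext ?_⟩
      rcases P_arch_mem s s.2 with h | h
      · exact h
      · rw [h, hc]; rfl
    · have : ∃ y : Qbar, complexConjugation y ≠ y := by
        by_contra hcon
        push Not at hcon
        exact hc (AlgEquiv.ext hcon)
      obtain ⟨y, hy⟩ := this
      obtain ⟨F, hfd, hst, hyF⟩ := exists_stableF y
      refine ⟨F.fixingSubgroup, ⟨F, hfd, hst, trivial, rfl⟩, fun s hs => Subtype.ext ?_⟩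
      rcases P_arch_mem s s.2 with h | h
      · exact h
      · exfalso
        rw [h, IntermediateField.mem_fixingSubgroup_iff] at hs
        exact hy (hs y hyF)
  obtain ⟨U, hU, h⟩ := key
  refine ⟨_, ⟨U, hU, rfl⟩, fun g s hs => ?_⟩
  rw [h s hs, mul_one]

end

end Fermat.Agent.S55Lib
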